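/-
Programme ORD (S33), chapter FINAL (lead): **the assembly, abstract over the semistable datum.**

`torsOrd_of_semiRedDatum` : let `𝔻` be a semistable reduction datum of `X₀(N)` over `ℚ̄` along
`A = padicPlace p` (`p` odd), with residue field perfect of characteristic `p`, `S` a non-special
system.  Assume
* `(i)`  every `γ ∈ I_p` acts on the function field by an `Inertial` automorphism (O6 ⇒ O5:
  `InertialPic3.exists_kap_eq_smul_sub`);
* `(ii)` the kernel of reduction is `I_p`-stable and every finite `I_p`-module embedded equivariantly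
  in it carries an approximate Hopf generating set over `W(𝔽̄_p)` with `m_A`-valued generators
  (O4 + O6: `KapInst7.exists_approxGen_kerRed`; consumed by O3 `ConnWur6.conn_subgroup_of_approxGen`).
Then `OrdP I_p` holds for `J₀(N)[p^k]`: `LevelOrd0.TorsOrd N p k (Iv p)`, with
`M⁰ := J₀(N)[p^k] ∩ kerRed 𝔻`.
-/
import Mathlib
import Fermat.Agent.ORD.INSTN.KapInst7
import Fermat.Agent.ORD.ANN.InertialPic3
import Fermat.Agent.ORD.CONN.ConnWur6
import Fermat.Agent.ORD.FINAL.LevelOrd0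
import Fermat.Agent.FF.FINAL.Final0

set_option autoImplicit false
set_option linter.unusedSectionVars false
set_option linter.style.longLine false

namespace Fermat.Agent.ORD.FINAL.FinalOrd0

open AlgebraicCurve ModularCurve Fermat.Agent.X0.FF Fermat.Agent.RR.LSpace
open Fermat.Agent.ORD.SEMIRED.SemiRedDatum9 Fermat.Agent.ORD.SEMIRED.ToSemiRed9
open Fermat.Agent.ORD.KERN.KerDefs9 Fermat.Agent.ORD.KERN.KerN9
open Fermat.Agent.ORD.ANN.Inertial3 Fermat.Agent.ORD.ANN.InertialPic3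
open Fermat.Agent.ORD.ALG.OrdP7 Fermat.Agent.ORD.CONN.ConnWur6
open Fermat.Agent.ORD.FINAL.LevelOrd0
open Fermat.Agent.FF.BASE.ApproxGen2 Fermat.Agent.FF.BASE.Place2
open Fermat.Agent.FF.LEVEL.Transfer0 Fermat.Agent.FF.FINAL.Final0 GaloisRep
open Fermat.Agent.TW.FLAT.FlatModule6 Fermat.Agent.FF.HOPF.Tors6

noncomputable section

variable (p : ℕ) [Fact p.Prime] (N : ℕ) [NeZero N] (k : ℕ)

/-- the connected part `M⁰ = J₀(N)[p^k] ∩ kerRed 𝔻`, as a subgroup of the torsion module. -/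
def connPart {κ Ft : Type} [Field κ] [Field Ft] [Algebra κ Ft] {ι E : Type}
    (𝔻 : SemiRedDatum Qb (X0.FF N) κ Ft ι E) :
    AddSubgroup (Submodule.torsionBy ℤ (JZero N) ((p : ℤ) ^ k)) :=
  (kerRed 𝔻).comap (Submodule.torsionBy ℤ (JZero N) ((p : ℤ) ^ k)).subtype.toAddMonoidHom

theorem mem_connPart {κ Ft : Type} [Field κ] [Field Ft] [Algebra κ Ft] {ι E : Type}
    (𝔻 : SemiRedDatum Qb (X0.FF N) κ Ft ι E)
    (x : Submodule.torsionBy ℤ (JZero N) ((p : ℤ) ^ k)) :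
    x ∈ connPart p N k 𝔻 ↔ (x : JZero N) ∈ kerRed 𝔻 := Iff.rfl

variable {p N k}

/-- **the assembly.** -/
theorem torsOrd_of_semiRedDatum (hp2 : p ≠ 2)
    {κ Ft : Type} [Field κ] [Field Ft] [Algebra κ Ft] {ι E : Type} [Finite ι] [Nonempty ι]
    [CharP κ p] [PerfectRing κ p]
    (𝔻 : SemiRedDatum Qb (X0.FF N) κ Ft ι E) (h𝔻A : 𝔻.B.A = padicPlace p)
    {g : ℕ} (S : NSSystemN 𝔻 g)
    (hRR : ∀ E' : Divisor Qb (X0.FF N), Divisor.degree E' = g →
      ∃ f : X0.FF N, f ≠ 0 ∧ ∀ P, -(E' P) ≤ P.ord f)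
    (hinert : ∀ γ ∈ Iv p, Inertial (toSemiRed 𝔻) (arithmeticGalois (modularFunctionFieldFull N) γ))
    (hstab : ∀ γ ∈ Iv p, ∀ x ∈ kerRed 𝔻,
      arithmeticGalois (modularFunctionFieldFull N) γ • x ∈ kerRed 𝔻)
    (hmain : ∀ {M : Type} [AddCommGroup M] [Finite M] (act : ↥(Iv p) → M → M)
      (emb : M →+ Pic0 Qb (X0.FF N)), Function.Injective emb →
      (∀ (γ : ↥(Iv p)) (x : M), emb (act γ x) = rhoI p N γ • emb x) →
      (∀ x : M, emb x ∈ kerRed 𝔻) →
      ∃ S0 : Set (M → Qb), ApproxGen (Wur p) (padicPlace p).toSubring act S0 ∧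
        ∀ s ∈ S0, ∀ x : M, s x ∈ (padicPlace p).nonunits) :
    TorsOrd N p k (Iv p) := by
  have hne : ((p : ℤ) ^ k) ≠ 0 :=
    pow_ne_zero k (Int.natCast_ne_zero.2 (Fact.out : p.Prime).ne_zero)
  haveI hfin : Finite (Submodule.torsionBy ℤ (JZero N) ((p : ℤ) ^ k)) := finite_tors N _ hne
  set M0 := connPart p N k 𝔻 with hM0
  -- stability of `M⁰`
  have hstab0 : ∀ σ ∈ Iv p, ∀ x ∈ M0, torsAct N ((p : ℤ) ^ k) σ x ∈ M0 := by
    intro σ hσ x hx
    rw [hM0, mem_connPart] at hx ⊢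
    exact hstab σ hσ _ hx
  unfold TorsOrd
  refine OrdP.of_conn M0 ?_ ?_
  · -- (i): inertia acts trivially on `M / M⁰`
    intro σ hσ x
    rw [hM0, mem_connPart]
    have hx : p ^ k • (x : JZero N) = 0 := by
      have h := x.2
      rw [Submodule.mem_torsionBy_iff] at h
      rw [← natCast_zsmul]
      push_cast
      exact h
    obtain ⟨T, hT⟩ := exists_kap_eq_smul_sub S hRR (hinert σ hσ) (x : JZero N) k hx
    have : ((torsAct N ((p : ℤ) ^ k) σ x - x : Submodule.torsionBy ℤ (JZero N) ((p : ℤ) ^ k)) :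
        JZero N) = S.kap T := by
      rw [← hT]
      rfl
    rw [this]
    exact kap_mem_kerRed S T
  · -- (ii): `M⁰` is connected
    haveI : Finite M0 := Finite.of_injective (fun x : M0 => (x : Submodule.torsionBy ℤ (JZero N) ((p : ℤ) ^ k))) Subtype.val_injective
    let act0 : ↥(Iv p) → M0 → M0 := fun γ x =>
      ⟨torsAct N ((p : ℤ) ^ k) γ.1 x.1, hstab0 γ.1 γ.2 x.1 x.2⟩
    let emb : M0 →+ Pic0 Qb (X0.FF N) :=
      ((Submodule.torsionBy ℤ (JZero N) ((p : ℤ) ^ k)).subtype.toAddMonoidHom).comp M0.subtype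
    obtain ⟨S0, hS0, hS0m⟩ := hmain act0 emb
      (fun x y h => Subtype.ext (Subtype.ext h)) (fun γ x => rfl) (fun x => x.2)
    exact conn_subgroup_of_approxGen p hp2 M0 hstab0 (fun x _ => torsAct_one N _ x)
      (fun σ _ τ _ x _ => torsAct_mul N _ σ τ x) (fun σ _ x _ y _ => torsAct_add N _ σ x y)
      hS0 hS0m

end

end Fermat.Agent.ORD.FINAL.FinalOrd0
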