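/-
Programme ORD (S33), chapter FINAL (lead): `FinalOrd0.torsOrd_of_semiRedDatum` with (ii) discharged by
`KapInst7.exists_approxGen_kerRed` and the place facts of `padicPlace p` (`FF/FINAL/Discharge2`).

`torsOrd_of_psOut` : a semistable datum `𝔻` of `X₀(N)` along `padicPlace p`, a non-special system `S`
fixed by inertia, `DiscCompatN` for inertia, `Inertial` for inertia, and the power-series contract
`PSOutN (kapSys S hRR)` of FAMN ⇒ `TorsOrd N p k (Iv p)`.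
-/
import Mathlib
import Fermat.Agent.ORD.FINAL.FinalOrd0
import Fermat.Agent.FF.FINAL.Discharge2

set_option autoImplicit false
set_option linter.unusedSectionVars false
set_option linter.style.longLine false

namespace Fermat.Agent.ORD.FINAL.FinalOrd1

open AlgebraicCurve ModularCurve Fermat.Agent.X0.FF Fermat.Agent.RR.LSpace
open Fermat.Agent.ORD.SEMIRED.SemiRedDatum9 Fermat.Agent.ORD.SEMIRED.ToSemiRed9
open Fermat.Agent.ORD.KERN.KerDefs9 Fermat.Agent.ORD.KERN.KerN9 Fermat.Agent.ORD.KERN.KerGalN9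
open Fermat.Agent.ORD.ANN.Inertial3
open Fermat.Agent.ORD.INSTN.KapInst7 Fermat.Agent.ORD.INSTN.KapSys7
open Fermat.Agent.ORD.GLUEN.RationalN7
open Fermat.Agent.ORD.FINAL.LevelOrd0 Fermat.Agent.ORD.FINAL.FinalOrd0
open Fermat.Agent.FF.BASE.ApproxGen2 Fermat.Agent.FF.BASE.Place2
open Fermat.Agent.FF.FINAL.Final0 Fermat.Agent.FF.FINAL.Discharge2 GaloisRep
open Fermat.Agent.TW.FLAT.FlatModule6

noncomputable section

variable {p : ℕ} [Fact p.Prime] {N : ℕ} [NeZero N] {k : ℕ}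

theorem torsOrd_of_psOut (hp2 : p ≠ 2)
    {κ Ft : Type} [Field κ] [Field Ft] [Algebra κ Ft] {ι E : Type} [Finite ι] [Nonempty ι]
    [CharP κ p] [PerfectRing κ p]
    (𝔻 : SemiRedDatum Qb (X0.FF N) κ Ft ι E) (h𝔻A : 𝔻.B.A = padicPlace p)
    {g : ℕ} (S : NSSystemN 𝔻 g)
    (hRR : ∀ E' : Divisor Qb (X0.FF N), Divisor.degree E' = g →
      ∃ f : X0.FF N, f ≠ 0 ∧ ∀ P, -(E' P) ≤ P.ord f)
    (hinert : ∀ γ ∈ Iv p, Inertial (toSemiRed 𝔻) (arithmeticGalois (modularFunctionFieldFull N) γ))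
    (compat : ∀ γ : ↥(Iv p), DiscCompatN 𝔻 (rhoI p N γ))
    (fixes : ∀ γ : ↥(Iv p), FixesN S (rhoI p N γ))
    (hPS : PSOutN (kapSys S hRR)) :
    TorsOrd N p k (Iv p) := by
  have hP := placeHyp p
  haveI : Infinite ↥𝔻.B.A := by rw [h𝔻A]; exact hP.infinite_A
  refine torsOrd_of_semiRedDatum hp2 𝔻 h𝔻A S hRR hinert ?_ ?_
  · intro γ hγ x hx
    exact smul_mem_kerRed S hRR (compat ⟨γ, hγ⟩) (fixes ⟨γ, hγ⟩) hx
  · intro M _ _ act emb emb_inj emb_act hker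
    obtain ⟨S0, h0, h0m⟩ := exists_approxGen_kerRed (W := ↥(Wur p)) S hRR (rhoI p N)
      (fun γ a => rfl) (by rw [h𝔻A]; exact hP.hΓA) compat fixes act emb emb_inj emb_act hker
      (by rw [h𝔻A]; exact hP.hsmall) (by rw [h𝔻A]; exact hP.hrank)
      (by rw [h𝔻A]; exact hP.hWA) hP.hWinj (by rw [h𝔻A]; exact hP.hWfix) hPS
    have h0m' : ∀ s ∈ S0, ∀ x : M, s x ∈ 𝔻.B.A.nonunits := by
      intro s hs x
      obtain ⟨c, hc⟩ := h0m s hs x
      rw [hc, ValuationSubring.mem_nonunits_iff_exists_mem_maximalIdeal]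
      exact ⟨(c : 𝔻.B.A).2, c.2⟩
    rw [h𝔻A] at h0 h0m'
    exact ⟨S0, h0, h0m'⟩

end

end Fermat.Agent.ORD.FINAL.FinalOrd1
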