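/-
Programme ORD (S33), chapter FINAL (lead): **`TorsOrd` from the O6 obligations on a semistable datum**
(the analogue of `FF/FINAL/Discharge2.torsFlat_of_redDatum'`).

`torsOrd_of_datum` : a semistable datum `𝔻` of `X₀(N)` over `ℚ̄` along `padicPlace p` (`p` odd,
residue field perfect of characteristic `p`) with
* (DLINK) on every component (`NSExistsN9.dlink_of_cover` from chart covers), (LIFT), (CONN);
* every `γ ∈ I_p` is `Inertial` and preserves the specialisation `𝔻.r` (`triv`);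
* `I_p`-fixed functions whose reductions are uniformizers at all smooth points off a finite set;
gives `TorsOrd N p k (Iv p)` for all `k`.
-/
import Mathlib
import Fermat.Agent.ORD.FINAL.FinalOrd1
import Fermat.Agent.ORD.INSTN.MainN7
import Fermat.Agent.ORD.FAMN.CloseN3
import Fermat.Agent.ORD.NSN.NonSpecialN2
import Fermat.Agent.X0.HasCanDivInst

set_option autoImplicit false
set_option linter.unusedSectionVars false
set_option linter.style.longLine false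

namespace Fermat.Agent.ORD.FINAL.FinalOrd2

open AlgebraicCurve ModularCurve Fermat.Agent.X0.FF Fermat.Agent.RR.LSpace
open Fermat.Agent.ORD.SEMIRED.SemiRedDatum9 Fermat.Agent.ORD.SEMIRED.ToSemiRed9
open Fermat.Agent.ORD.KERN.KerDefs9 Fermat.Agent.ORD.KERN.KerN9 Fermat.Agent.ORD.KERN.KerGalN9
open Fermat.Agent.ORD.NSN.NSInputN9 Fermat.Agent.ORD.NSN.NSExistsN9
open Fermat.Agent.ORD.ANN.Inertial3
open Fermat.Agent.ORD.INSTN.KapInst7 Fermat.Agent.ORD.INSTN.KapSys7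
open Fermat.Agent.ORD.FINAL.LevelOrd0 Fermat.Agent.ORD.FINAL.FinalOrd1
open Fermat.Agent.FF.BASE.Place2
open Fermat.Agent.FF.FINAL.Final0 Fermat.Agent.FF.FINAL.Discharge2 GaloisRep
open Fermat.Agent.TW.FLAT.FlatModule6

noncomputable section

variable {p : ℕ} [Fact p.Prime] {N : ℕ} [NeZero N] {k : ℕ}

theorem torsOrd_of_datum (hp2 : p ≠ 2)
    {κ Ft : Type} [Field κ] [Field Ft] [Algebra κ Ft] {ι E : Type} [Finite ι] [Nonempty ι]
    [Finite E] [CharP κ p] [PerfectRing κ p] [Infinite κ]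
    (𝔻 : SemiRedDatum Qb (X0.FF N) κ Ft ι E) (h𝔻A : 𝔻.B.A = padicPlace p)
    {x : X0.FF N} (hx : IsGen Qb x)
    (hlink : DLink 𝔻) (hlift : LiftsMatched 𝔻) (hconn : GraphConn 𝔻)
    (hinert : ∀ γ ∈ Iv p, Inertial (toSemiRed 𝔻) (arithmeticGalois (modularFunctionFieldFull N) γ))
    (triv : ∀ γ ∈ Iv p, ∀ P : Place Qb (X0.FF N),
      𝔻.r (arithmeticGalois (modularFunctionFieldFull N) γ • P) = 𝔻.r P)
    (Bad : Set (ι × Place κ Ft)) (hBad : Bad.Finite)
    (hunif : ∀ (v : ι) (Q : Place κ Ft), 𝔻.IsSm v Q → (v, Q) ∉ Bad →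
      ∃ u : 𝔻.G v, 𝔻.PoleFree (u : X0.FF N) v Q ∧ Q.ord (𝔻.red v u) = 1 ∧
        ∀ γ ∈ Iv p, arithmeticGalois (modularFunctionFieldFull N) γ • (u : X0.FF N) = (u : X0.FF N)) :
    TorsOrd N p k (Iv p) := by
  haveI := Fermat.Agent.X0.HasCanDivInst.hasCanonicalDivisor N
  have hP := placeHyp p
  have hns : ∀ I : NSInputN 𝔻 (genus Qb (X0.FF N)), I.IsNonSpecial :=
    fun I => Fermat.Agent.ORD.NSN.NonSpecialN2.nonspecialN hx hlift hconn I
  have triv' : ∀ (γ : ↥(Iv p)) (P : Place Qb (X0.FF N)), 𝔻.r (rhoI p N γ • P) = 𝔻.r P :=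
    fun γ P => triv γ.1 γ.2 P
  obtain ⟨S, hS⟩ := Fermat.Agent.ORD.INSTN.MainN7.exists_admissible (rhoI p N) hx hlink hns triv'
    Bad hBad (fun v Q hQ hB => by
      obtain ⟨u, h1, h2, h3⟩ := hunif v Q hQ hB
      exact ⟨u, h1, h2, fun γ => h3 γ.1 γ.2⟩)
  have hRR : ∀ E' : Divisor Qb (X0.FF N), Divisor.degree E' = (genus Qb (X0.FF N) : ℤ) →
      ∃ f : X0.FF N, f ≠ 0 ∧ ∀ P, -(E' P) ≤ P.ord f :=
    fun E' hE' => Fermat.Agent.FF.INST.RRInst0.hRR_of_isGen hx E' hE'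
  have hrank : ∀ w : 𝔻.B.A, w ≠ 0 → ∀ c : 𝔻.B.A, ¬ IsUnit c → ∃ n : ℕ, c ^ n ∈ Ideal.span {w} := by
    rw [h𝔻A]; exact hP.hrank
  have hPS := Fermat.Agent.ORD.FAMN.CloseN3.psOutN_all hx hlink hns hrank hRR S
  exact torsOrd_of_psOut hp2 𝔻 h𝔻A S hRR hinert
    (fun γ P P' h => by rw [triv' γ P, triv' γ P', h]) hS hPS

end

end Fermat.Agent.ORD.FINAL.FinalOrd2
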