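/-
Programme ORD (S33), chapter FINAL (helper6): **S33 from (hhor) alone.**

`torsOrd_of_hor` : `TorsOrd (M' * p) p k (Iv p)` from `MainOfHor6.Hor0`, `MainOfHor6.Hor1` for the N34
model input `ModelEnd4.modelInput_four` ((S) is helper4's `SmoothInst4.hS_zero/hS_one`).

`isOrdinaryAt_of_hor` : the frozen S33 hypotheses + (hhor) on both charts at every level `M'`
(`4 ∣ M'`, `p ∤ M'`) ⟹ `H.ρ.IsOrdinaryAt p`.
-/
import Mathlib
import Fermat.Agent.ORD.FINAL.FinalOrd3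
import Fermat.Agent.ORD.IFACEN.MainOfHor6
import Fermat.Agent.ORD.NODE.SmoothInst4

set_option autoImplicit false
set_option linter.unusedSectionVars false
set_option linter.style.longLine false
set_option synthInstance.maxHeartbeats 400000

namespace Fermat.Agent.ORD.FINAL.FinalOrd6

open Fermat.Agent.ORD.FINAL.LevelOrd0 Fermat.Agent.FF.BASE.Place2
open Fermat.Agent.ES.N34.ModelInput13
open Fermat.Agent.ORD.IFACEN.MainOfHor6
open CuspForm CuspForm.HeckeGaloisRepDatum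

section Level

variable {p M' : ℕ} [Fact p.Prime] [NeZero M'] (hpM : ¬ p ∣ M') (h4 : 4 ∣ M')

include hpM h4 in
/-- the N34 model input along `padicPlace p`, `p` odd. -/
theorem modelInput (hp2 : p ≠ 2) : ModelInput 4 8 p M' (padicPlace p) :=
  have : NeZero p := ⟨(Fact.out : p.Prime).ne_zero⟩
  Fermat.Agent.ES.N34.ModelEnd4.modelInput_four p M' (padicPlace p) (Fact.out : p.Prime) hpM hp2 h4
    (liesOverPrime (ℓ := p))

/-- **`hmain` from (hhor) alone.** -/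
theorem torsOrd_of_hor (hp2 : p ≠ 2) (k : ℕ)
    (hhor0 : Hor0 p M' (padicPlace p) (liesOverPrime (ℓ := p)) hpM h4 (modelInput hpM h4 hp2))
    (hhor1 : Hor1 p M' (padicPlace p) (liesOverPrime (ℓ := p)) hpM h4 (modelInput hpM h4 hp2)) :
    TorsOrd (M' * p) p k (Iv p) :=
  torsOrd_of_hor_S hpM h4 hp2 k (modelInput hpM h4 hp2) hhor0 hhor1
    (fun i 𝔪 _ => Fermat.Agent.ORD.NODE.SmoothInst4.hS_zero p M' (padicPlace p)
      (liesOverPrime (ℓ := p)) (modelInput hpM h4 hp2) i 𝔪)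
    (fun i 𝔪 _ => Fermat.Agent.ORD.NODE.SmoothInst4.hS_one p M' (padicPlace p)
      (liesOverPrime (ℓ := p)) (modelInput hpM h4 hp2) i 𝔪)

end Level

variable {p : ℕ} {N : ℕ} [NeZero N] {S : Finset ℕ}
  {𝒪 : Type} [CommRing 𝒪] [IsDomain 𝒪] [IsDiscreteValuationRing 𝒪]
  [IsAdicComplete (IsLocalRing.maximalIdeal 𝒪) 𝒪]
  {θ : CuspForm.heckeAlgebra N 2 (↑S : Set ℕ) →+* IsLocalRing.ResidueField 𝒪}
  {T : Type} [CommRing T] [IsLocalRing T] [IsNoetherianRing T]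
  [IsAdicComplete (IsLocalRing.maximalIdeal T) T] [Algebra 𝒪 T] [IsLocalHom (algebraMap 𝒪 T)]
  [Module.Finite 𝒪 T] [Module.Free 𝒪 T]

/-- **S33 from (hhor) alone.** -/
theorem isOrdinaryAt_of_hor
    [Finite (IsLocalRing.ResidueField 𝒪)] [CharZero 𝒪] [Fact p.Prime]
    (hp : p.Prime) (hp2 : p ≠ 2) (hp𝒪 : (p : 𝒪) ∈ IsLocalRing.maximalIdeal 𝒪)
    (hN : p ∣ N ∧ ¬ p ^ 2 ∣ N)
    (hNS : ∀ q : ℕ, q.Prime → q ∣ N → q ∈ S)
    (H : CuspForm.HeckeGaloisRepDatum N (↑S : Set ℕ) 𝒪 θ T)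
    (hres : (GaloisRepAdic.ofResidualGaloisRep H.ρ.residual).IsOrdinaryAt p)
    (hhor : ∀ (M' : ℕ) [NeZero M'] (hpM : ¬ p ∣ M') (h4 : 4 ∣ M')
      (MI : ModelInput 4 8 p M' (padicPlace p)),
      Hor0 p M' (padicPlace p) (liesOverPrime (ℓ := p)) hpM h4 MI ∧
        Hor1 p M' (padicPlace p) (liesOverPrime (ℓ := p)) hpM h4 MI) :
    H.ρ.IsOrdinaryAt p :=
  Fermat.Agent.ORD.FINAL.FinalOrd3.isOrdinaryAt_of_forall_level hp hp2 hp𝒪 hN hNS H hres
    (fun M' _ _ h4 hpM k => torsOrd_of_hor hpM h4 hp2 k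
      (hhor M' hpM h4 (modelInput hpM h4 hp2)).1 (hhor M' hpM h4 (modelInput hpM h4 hp2)).2)

end Fermat.Agent.ORD.FINAL.FinalOrd6
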