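/-
Programme ORD (S33), chapter FINAL (helper6): **S33, hypothesis-free.**

`hor0`, `hor1` : `MainOfHor6.Hor0/Hor1` from helper7's `HorInst7.hhor0/hhor1`;
`isOrdinaryAt` : the frozen statement S33 (`H.ρ.IsOrdinaryAt p` for a Hecke–Galois datum of level
`N`, `p ∥ N`, `p` odd, with ordinary residual representation).
-/
import Mathlib
import Fermat.Agent.ORD.FINAL.FinalOrd6
import Fermat.Agent.ORD.NODE.HorInst7

set_option autoImplicit false
set_option linter.unusedSectionVars false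
set_option linter.style.longLine false
set_option synthInstance.maxHeartbeats 400000

open ModularCurve

namespace Fermat.Agent.ORD.FINAL.OrdinaryMain6

open Fermat.Agent.ORD.FINAL.LevelOrd0 Fermat.Agent.FF.BASE.Place2
open Fermat.Agent.RED.Interface4
open Fermat.Agent.ES.N34.ModelInput13
open Fermat.Agent.ORD.IFACEN.MainOfHor6 Fermat.Agent.ORD.IFACEN.BadLevelOne8
  Fermat.Agent.ORD.IFACEN.BadFamily8
open CuspForm CuspForm.HeckeGaloisRepDatum

section Hor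

variable (p M' : ℕ) [Fact p.Prime] [NeZero M'] (A : ValuationSubring Qbar)
  (hA : A.LiesOverPrime p) (hpM : ¬ p ∣ M') (h4 : 4 ∣ M') (MI : ModelInput 4 8 p M' A)

/-- **(hhor) on the chart `t`** (helper7's `HorInst7.hhor0`). -/
theorem hor0 : Hor0 p M' A hA hpM h4 MI :=
  fun χ₀ hχ₀ _ _ i ε hε =>
    Fermat.Agent.ORD.NODE.HorInst7.hhor0 p M' A hA h4 MI i χ₀ hχ₀
      (fun _ hb => baseChangeHom_mem_chart0 p M' A h4 i.K (htK MI i) hb) ε hε

/-- **(hhor) on the chart `t⁻¹`** (helper7's `HorInst7.hhor1`). -/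
theorem hor1 : Hor1 p M' A hA hpM h4 MI :=
  fun χ₀ hχ₀ _ _ i ε hε =>
    Fermat.Agent.ORD.NODE.HorInst7.hhor1 p M' A hA h4 MI i χ₀ hχ₀
      (fun _ hb => baseChangeHom_mem_chart1 p M' A h4 i.K (htK MI i) hb) ε hε

end Hor

variable {p : ℕ} {N : ℕ} [NeZero N] {S : Finset ℕ}
  {𝒪 : Type} [CommRing 𝒪] [IsDomain 𝒪] [IsDiscreteValuationRing 𝒪]
  [IsAdicComplete (IsLocalRing.maximalIdeal 𝒪) 𝒪]
  {θ : CuspForm.heckeAlgebra N 2 (↑S : Set ℕ) →+* IsLocalRing.ResidueField 𝒪}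
  {T : Type} [CommRing T] [IsLocalRing T] [IsNoetherianRing T]
  [IsAdicComplete (IsLocalRing.maximalIdeal T) T] [Algebra 𝒪 T] [IsLocalHom (algebraMap 𝒪 T)]
  [Module.Finite 𝒪 T] [Module.Free 𝒪 T]

/-- **S33**: the Galois representation of a Hecke–Galois datum of level `N` with `p ∥ N`, `p` odd,
is ordinary at `p` as soon as its residual representation is. -/
theorem isOrdinaryAt
    [Finite (IsLocalRing.ResidueField 𝒪)] [CharZero 𝒪]
    (hp : p.Prime) (hp2 : p ≠ 2) (hp𝒪 : (p : 𝒪) ∈ IsLocalRing.maximalIdeal 𝒪)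
    (hN : p ∣ N ∧ ¬ p ^ 2 ∣ N)
    (hNS : ∀ q : ℕ, q.Prime → q ∣ N → q ∈ S)
    (H : CuspForm.HeckeGaloisRepDatum N (↑S : Set ℕ) 𝒪 θ T)
    (hres : (GaloisRepAdic.ofResidualGaloisRep H.ρ.residual).IsOrdinaryAt p) :
    H.ρ.IsOrdinaryAt p :=
  haveI : Fact p.Prime := ⟨hp⟩
  Fermat.Agent.ORD.FINAL.FinalOrd6.isOrdinaryAt_of_hor hp hp2 hp𝒪 hN hNS H hres
    (fun M' _ hpM h4 MI =>
      ⟨hor0 p M' (padicPlace p) (liesOverPrime (ℓ := p)) hpM h4 MI,
        hor1 p M' (padicPlace p) (liesOverPrime (ℓ := p)) hpM h4 MI⟩)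

end Fermat.Agent.ORD.FINAL.OrdinaryMain6
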