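/-
Programme ORD (S33), chapter FINAL (lead): **level transfer for `OrdP`.**

`TorsOrd N p k I : Prop` := `OrdP I (torsAct N (p^k))` on `J0(N)[p^k]` (`I ≤ G_ℚ` any subgroup).
* `torsOrd_of_dvd` : for `N ∣ M` with `π^* : J0(N) → J0(M)` injective on `p^k`-torsion,
  `TorsOrd M p k I → TorsOrd N p k I` (`OrdP.of_injective`);
* `torsOrd_of_auxLevel` : `TorsOrd (auxLevel p N) p k I → TorsOrd N p k I`
  (`PullbackInj12.levelPullback_auxLevel_eq_zero`; `auxLevel p N = lcm N 4` for odd `p`, so that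
  `p ∥ N → p ∥ auxLevel p N` and `4 ∣ auxLevel p N / p`: the level of N34's nodal model).
-/
import Mathlib
import Fermat.Agent.FF.LEVEL.Transfer0
import Fermat.Agent.ORD.ALG.OrdP7

set_option autoImplicit false

open AlgebraicCurve ModularCurve

namespace Fermat.Agent.ORD.FINAL.LevelOrd0

open Fermat.Agent.FF.LEVEL.Transfer0 Fermat.Agent.ORD.ALG.OrdP7 GaloisRep
open Fermat.Agent.TW.FLAT.FlatModule6
open Fermat.Agent.ES.HECKE.LevelPullback12 Fermat.Agent.ES.RED.PullbackInj12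

/-- `OrdP` for the `p^k`-torsion of `J0(N)` with respect to a subgroup `I ≤ G_ℚ`. -/
def TorsOrd (N : ℕ) [NeZero N] (p k : ℕ) (I : Subgroup GQ) : Prop :=
  OrdP I (torsAct N ((p : ℤ) ^ k))

section Dvd

variable {N M : ℕ} [NeZero N] [NeZero M]

/-- Level transfer along an injective `π^*`. -/
theorem torsOrd_of_dvd (p k : ℕ) (I : Subgroup GQ) (h : N ∣ M)
    (hinj : ∀ x : JZero N, ((p : ℤ) ^ k) • x = 0 → levelPullback h x = 0 → x = 0)
    (hM : TorsOrd M p k I) : TorsOrd N p k I := by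
  set n : ℤ := (p : ℤ) ^ k with hn
  unfold TorsOrd at hM ⊢
  refine OrdP.of_injective hM (torsPullback h n) ?_ ?_
  · rw [injective_iff_map_eq_zero]
    intro x hx
    apply Subtype.ext
    have hx' : levelPullback h (x : JZero N) = 0 := congrArg Subtype.val hx
    have hxt := x.2
    rw [Submodule.mem_torsionBy_iff] at hxt
    exact hinj x hxt hx'
  · intro σ _ x
    exact torsPullback_torsAct h n σ x

end Dvd

/-- Level transfer from the auxiliary level `lcm N 4` (`p` odd) resp. `lcm N 9`. -/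
theorem torsOrd_of_auxLevel (p : ℕ) (hp : p.Prime) (N : ℕ) [NeZero N] (k : ℕ) (I : Subgroup GQ)
    (hM : haveI := Fermat.Agent.RED.LVL.LevelDegree17.neZero_auxLevel p N
      TorsOrd (Fermat.Agent.RED.Interface4.auxLevel p N) p k I) : TorsOrd N p k I := by
  haveI := Fermat.Agent.RED.LVL.LevelDegree17.neZero_auxLevel p N
  refine torsOrd_of_dvd p k I (Fermat.Agent.RED.Interface4.dvd_auxLevel p N) ?_ hM
  intro x hx hpx
  have hpos : 0 < p ^ k := pow_pos hp.pos k
  refine levelPullback_auxLevel_eq_zero p N (p ^ k) hpos x ?_ hpx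
  rw [← natCast_zsmul]
  push_cast
  exact hx

/-- For odd `p` with `p ∥ N`: the auxiliary level is `M' * p` with `4 ∣ M'`, `p ∤ M'`. -/
theorem auxLevel_eq (p : ℕ) (hp : p.Prime) (hp2 : p ≠ 2) (N : ℕ) (hN : p ∣ N ∧ ¬ p ^ 2 ∣ N) :
    ∃ M' : ℕ, Fermat.Agent.RED.Interface4.auxLevel p N = M' * p ∧ 4 ∣ M' ∧ ¬ p ∣ M' := by
  have haux : Fermat.Agent.RED.Interface4.auxLevel p N = Nat.lcm N 4 := by
    unfold Fermat.Agent.RED.Interface4.auxLevel
    rw [if_neg hp2]
  have hp4 : Nat.Coprime p 4 := by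
    have h2 : Nat.Coprime p 2 := (Nat.coprime_primes hp Nat.prime_two).mpr hp2
    have : (4 : ℕ) = 2 ^ 2 := by norm_num
    rw [this]
    exact Nat.Coprime.pow_right 2 h2
  obtain ⟨N', rfl⟩ := hN.1
  have hpN' : ¬ p ∣ N' := by
    intro h
    apply hN.2
    rw [pow_two]
    exact Nat.mul_dvd_mul_left p h
  have hcop : Nat.Coprime p (Nat.lcm N' 4) := by
    rw [Nat.Prime.coprime_iff_not_dvd hp]
    intro h
    have h1 : p ∣ N' * 4 := h.trans (Nat.lcm_dvd_mul N' 4)
    rcases (Nat.Prime.dvd_mul hp).1 h1 with h' | h'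
    · exact hpN' h'
    · exact (Nat.Prime.coprime_iff_not_dvd hp).mp hp4 h'
  refine ⟨Nat.lcm N' 4, ?_, Nat.dvd_lcm_right _ _, ?_⟩
  · rw [haux]
    -- lcm (p N') 4 = p * lcm N' 4
    have h1 : Nat.lcm (p * N') 4 = Nat.lcm p (Nat.lcm N' 4) := by
      rw [← Nat.lcm_assoc]
      congr 1
      exact ((Nat.Prime.coprime_iff_not_dvd hp).mpr hpN').lcm_eq_mul.symm
    rw [h1, hcop.lcm_eq_mul, mul_comm]
  · exact (Nat.Prime.coprime_iff_not_dvd hp).mp hcop

end Fermat.Agent.ORD.FINAL.LevelOrd0
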