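/-
Programme ORD (S33), chapter FINAL (lead): **S33 from `TorsOrd` at the auxiliary level.**

`isOrdinaryAt_of_torsOrd` : hypotheses of S33 + `∀ k, TorsOrd N p k (Iv p)` ⇒ `H.ρ.IsOrdinaryAt p`
(O2 chain `OrdPChain5.ordP_level_of_tors`, independence of the place `OrdPConj5`, O1
`Ordinary7.isOrdinaryAt_of_datum`).
`isOrdinaryAt_of_torsOrd_aux` : the same from `∀ k, TorsOrd (auxLevel p N) p k (Iv p)`
(`LevelOrd0.torsOrd_of_auxLevel`).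
-/
import Mathlib
import Fermat.Agent.ORD.ALG.Ordinary7
import Fermat.Agent.ORD.CHAIN.OrdPChain5
import Fermat.Agent.ORD.CHAIN.OrdPConj5
import Fermat.Agent.ORD.FINAL.LevelOrd0
import Fermat.Agent.FF.BASE.Place2

set_option autoImplicit false

namespace Fermat.Agent.ORD.FINAL.TopOrd0

open Fermat.Agent.ORD.ALG.OrdP7 Fermat.Agent.ORD.FINAL.LevelOrd0 Fermat.Agent.FF.BASE.Place2
open Fermat.Agent.FF.LEVEL.Transfer0 Fermat.Agent.TW.FLAT.FlatModule6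
open CuspForm CuspForm.HeckeGaloisRepDatum

variable {p : ℕ} {N : ℕ} [NeZero N] {S : Finset ℕ}
  {𝒪 : Type} [CommRing 𝒪] [IsDomain 𝒪] [IsDiscreteValuationRing 𝒪]
  [IsAdicComplete (IsLocalRing.maximalIdeal 𝒪) 𝒪]
  {θ : CuspForm.heckeAlgebra N 2 (↑S : Set ℕ) →+* IsLocalRing.ResidueField 𝒪}
  {T : Type} [CommRing T] [IsLocalRing T] [IsNoetherianRing T]
  [IsAdicComplete (IsLocalRing.maximalIdeal T) T] [Algebra 𝒪 T] [IsLocalHom (algebraMap 𝒪 T)]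
  [Module.Finite 𝒪 T] [Module.Free 𝒪 T]

theorem isOrdinaryAt_of_torsOrd
    [Finite (IsLocalRing.ResidueField 𝒪)] [CharZero 𝒪] [Fact p.Prime]
    (hp : p.Prime) (hp2 : p ≠ 2) (hp𝒪 : (p : 𝒪) ∈ IsLocalRing.maximalIdeal 𝒪) (hN : p ∣ N)
    (hNS : ∀ q : ℕ, q.Prime → q ∣ N → q ∈ S)
    (H : CuspForm.HeckeGaloisRepDatum N (↑S : Set ℕ) 𝒪 θ T)
    (hres : (GaloisRepAdic.ofResidualGaloisRep H.ρ.residual).IsOrdinaryAt p)
    (htors : ∀ k : ℕ, TorsOrd N p k (Iv p)) :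
    H.ρ.IsOrdinaryAt p := by
  refine Fermat.Agent.ORD.ALG.Ordinary7.isOrdinaryAt_of_datum hp hp2 hp𝒪 hN hNS H ?_ hres
  intro P hP I' hI'
  refine Fermat.Agent.ORD.CHAIN.OrdPChain5.ordP_level_of_tors (P.inertiaSubgroupIn ℚ) hp hp2 hp𝒪 hN
    hNS H ?_ I' hI'
  intro k
  exact Fermat.Agent.ORD.CHAIN.OrdPConj5.ordP_torsAct_of_place hp (liesOverPrime (ℓ := p)) hP N _
    (htors k)

theorem isOrdinaryAt_of_torsOrd_aux
    [Finite (IsLocalRing.ResidueField 𝒪)] [CharZero 𝒪] [Fact p.Prime]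
    (hp : p.Prime) (hp2 : p ≠ 2) (hp𝒪 : (p : 𝒪) ∈ IsLocalRing.maximalIdeal 𝒪) (hN : p ∣ N)
    (hNS : ∀ q : ℕ, q.Prime → q ∣ N → q ∈ S)
    (H : CuspForm.HeckeGaloisRepDatum N (↑S : Set ℕ) 𝒪 θ T)
    (hres : (GaloisRepAdic.ofResidualGaloisRep H.ρ.residual).IsOrdinaryAt p)
    (htors : haveI := Fermat.Agent.RED.LVL.LevelDegree17.neZero_auxLevel p N
      ∀ k : ℕ, TorsOrd (Fermat.Agent.RED.Interface4.auxLevel p N) p k (Iv p)) :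
    H.ρ.IsOrdinaryAt p :=
  isOrdinaryAt_of_torsOrd hp hp2 hp𝒪 hN hNS H hres
    (fun k => torsOrd_of_auxLevel p hp N k (Iv p) (htors k))

end Fermat.Agent.ORD.FINAL.TopOrd0
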