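/-
Programme ORD (S33), chapter FINAL (lead): **the cast `auxLevel p N = M' * p`.**

`isOrdinaryAt_of_forall_level` : the S33 hypotheses + `TorsOrd (M' * p) p k (Iv p)` for ALL `M'` with
`4 ∣ M'`, `p ∤ M'` (the level of the nodal model) give `H.ρ.IsOrdinaryAt p`.
-/
import Mathlib
import Fermat.Agent.ORD.FINAL.TopOrd0

set_option autoImplicit false
set_option linter.unusedSectionVars false
set_option linter.style.longLine false

namespace Fermat.Agent.ORD.FINAL.FinalOrd3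

open Fermat.Agent.ORD.FINAL.LevelOrd0 Fermat.Agent.FF.BASE.Place2
open Fermat.Agent.FF.LEVEL.Transfer0 Fermat.Agent.TW.FLAT.FlatModule6
open CuspForm CuspForm.HeckeGaloisRepDatum

variable {p : ℕ} {N : ℕ} [NeZero N] {S : Finset ℕ}
  {𝒪 : Type} [CommRing 𝒪] [IsDomain 𝒪] [IsDiscreteValuationRing 𝒪]
  [IsAdicComplete (IsLocalRing.maximalIdeal 𝒪) 𝒪]
  {θ : CuspForm.heckeAlgebra N 2 (↑S : Set ℕ) →+* IsLocalRing.ResidueField 𝒪}
  {T : Type} [CommRing T] [IsLocalRing T] [IsNoetherianRing T]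
  [IsAdicComplete (IsLocalRing.maximalIdeal T) T] [Algebra 𝒪 T] [IsLocalHom (algebraMap 𝒪 T)]
  [Module.Finite 𝒪 T] [Module.Free 𝒪 T]

theorem isOrdinaryAt_of_forall_level
    [Finite (IsLocalRing.ResidueField 𝒪)] [CharZero 𝒪] [Fact p.Prime]
    (hp : p.Prime) (hp2 : p ≠ 2) (hp𝒪 : (p : 𝒪) ∈ IsLocalRing.maximalIdeal 𝒪)
    (hN : p ∣ N ∧ ¬ p ^ 2 ∣ N)
    (hNS : ∀ q : ℕ, q.Prime → q ∣ N → q ∈ S)
    (H : CuspForm.HeckeGaloisRepDatum N (↑S : Set ℕ) 𝒪 θ T)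
    (hres : (GaloisRepAdic.ofResidualGaloisRep H.ρ.residual).IsOrdinaryAt p)
    (hmain : ∀ (M' : ℕ) [NeZero M'] [NeZero (M' * p)], 4 ∣ M' → ¬ p ∣ M' →
      ∀ k : ℕ, TorsOrd (M' * p) p k (Iv p)) :
    H.ρ.IsOrdinaryAt p := by
  refine Fermat.Agent.ORD.FINAL.TopOrd0.isOrdinaryAt_of_torsOrd_aux hp hp2 hp𝒪 hN.1 hNS H hres ?_
  obtain ⟨M', hM, h4, hpM⟩ := auxLevel_eq p hp hp2 N hN
  haveI hM0 : NeZero M' := ⟨by rintro rfl; exact hpM (dvd_zero p)⟩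
  have key : ∀ (n : ℕ) [NeZero n], n = M' * p → ∀ k : ℕ, TorsOrd n p k (Iv p) := by
    intro n _ hn
    subst hn
    exact hmain M' h4 hpM
  haveI := Fermat.Agent.RED.LVL.LevelDegree17.neZero_auxLevel p N
  exact key _ hM

end Fermat.Agent.ORD.FINAL.FinalOrd3
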