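/-
Programme ORD (S33), chapter FINAL (lead): **S33 from the node systems alone.**

`isOrdinaryAt_of_nodes` : the S33 hypotheses + `MainOfNodes6.NodesHyp` (a `NodeSys` at every two-branch
closed point of the two-chart model of `X₀(M'p)` along `padicPlace p`) for all `M'` give
`H.ρ.IsOrdinaryAt p`  (`FinalOrd3.isOrdinaryAt_of_forall_level` + `MainOfNodes6.hmain_of_nd`).
-/
import Mathlib
import Fermat.Agent.ORD.FINAL.FinalOrd3
import Fermat.Agent.ORD.IFACEN.MainOfNodes6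

set_option autoImplicit false
set_option linter.unusedSectionVars false
set_option linter.style.longLine false

namespace Fermat.Agent.ORD.FINAL.FinalOrd4

open CuspForm CuspForm.HeckeGaloisRepDatum

variable {p : ℕ} {N : ℕ} [NeZero N] {S : Finset ℕ}
  {𝒪 : Type} [CommRing 𝒪] [IsDomain 𝒪] [IsDiscreteValuationRing 𝒪]
  [IsAdicComplete (IsLocalRing.maximalIdeal 𝒪) 𝒪]
  {θ : CuspForm.heckeAlgebra N 2 (↑S : Set ℕ) →+* IsLocalRing.ResidueField 𝒪}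
  {T : Type} [CommRing T] [IsLocalRing T] [IsNoetherianRing T]
  [IsAdicComplete (IsLocalRing.maximalIdeal T) T] [Algebra 𝒪 T] [IsLocalHom (algebraMap 𝒪 T)]
  [Module.Finite 𝒪 T] [Module.Free 𝒪 T]

theorem isOrdinaryAt_of_nodes
    [Finite (IsLocalRing.ResidueField 𝒪)] [CharZero 𝒪] [Fact p.Prime]
    (hp : p.Prime) (hp2 : p ≠ 2) (hp𝒪 : (p : 𝒪) ∈ IsLocalRing.maximalIdeal 𝒪)
    (hN : p ∣ N ∧ ¬ p ^ 2 ∣ N)
    (hNS : ∀ q : ℕ, q.Prime → q ∣ N → q ∈ S)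
    (H : CuspForm.HeckeGaloisRepDatum N (↑S : Set ℕ) 𝒪 θ T)
    (hres : (GaloisRepAdic.ofResidualGaloisRep H.ρ.residual).IsOrdinaryAt p)
    (nd : ∀ (M' : ℕ) [NeZero M'] (hpM : ¬ p ∣ M') (h4 : 4 ∣ M'),
      Fermat.Agent.ORD.IFACEN.MainOfNodes6.NodesHyp hpM h4) :
    H.ρ.IsOrdinaryAt p :=
  Fermat.Agent.ORD.FINAL.FinalOrd3.isOrdinaryAt_of_forall_level hp hp2 hp𝒪 hN hNS H hres
    (Fermat.Agent.ORD.IFACEN.MainOfNodes6.hmain_of_nd p hp2 nd)

end Fermat.Agent.ORD.FINAL.FinalOrd4
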